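import Fermat.Agent.FlatModel.HeckeKernel
import Fermat.Agent.LevelSq.RepStep
import Fermat.Agent.Eisen.LevelPull
import Fermat.Agent.JTors.Divisible
import Fermat.Agent.GalRep.Specializations

/-!
# From `(s - 1)² = 0` on torsion to unipotence on Hecke representations

If inertia at `q` satisfies `(s - 1)² = 0` on the `p`-power torsion of `J₀(N)`, then it is unipotent
on every Hecke representation of level `N`: `(ρ s - 1)² = 0` and `det (ρ s) = 1` give trace two.
-/

set_option autoImplicit false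
set_option linter.unusedSectionVars false

noncomputable section

namespace FLTAgent.Semistable

open Matrix IsLocalRing Polynomial ModularCurve AlgebraicCurve

local notation "Qbar" => AlgebraicClosure ℚ
local notation "Γℚ" => AlgebraicClosure ℚ ≃ₐ[ℚ] AlgebraicClosure ℚ

/-- Inertia at `q` is unipotent of echelon two on the `p`-power torsion of `J₀(N)`. -/
def InertiaEchelon (N : ℕ) [NeZero N] (q p : ℕ) : Prop :=
  ∀ A : ValuationSubring Qbar, A.LiesOverPrime q → ∀ σ ∈ A.inertiaSubgroupIn ℚ,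
    ∀ (n : ℕ) (x : JZero N), p ^ n • x = 0 → σ • (σ • x - x) = σ • x - x

theorem inertiaEchelon_of_unipRoots {N : ℕ} [NeZero N] {q p : ℕ}
    (h : ∀ A : ValuationSubring Qbar, A.LiesOverPrime q → Eisen.UnipRoots N p A) :
    InertiaEchelon N q p := fun A hA σ hσ n x hx =>
  h A hA σ hσ n x fun τ => by rw [hx]; exact GalRep.smul_zero_jZero τ

/-- It suffices to know it at a multiple of the level, for the roots of rational points. -/
theorem inertiaEchelon_of_dvd {N N' : ℕ} [NeZero N] [NeZero N'] {q p : ℕ} (hp : p.Prime)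
    (hN : N ∣ N')
    (h : ∀ A : ValuationSubring Qbar, A.LiesOverPrime q → Eisen.UnipRoots N' p A) :
    InertiaEchelon N q p :=
  inertiaEchelon_of_unipRoots fun A hA =>
    Eisen.unipRoots_of_dvd hp hN (fun x => JTors.exists_nsmul_eq_jZero_of_prime N hp x) (h A hA)

/-- A `2 × 2` matrix `1 + X` of determinant one with `X² = 0` has trace two. -/
theorem trace_eq_two_of_sq_sub_one {T : Type*} [CommRing T] (G : Matrix (Fin 2) (Fin 2) T)
    (hsq : (G - 1) * (G - 1) = 0) (hdet : G.det = 1) : G.trace = 2 := by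
  have h00 := congrFun (congrFun hsq 0) 0
  have h01 := congrFun (congrFun hsq 0) 1
  have h10 := congrFun (congrFun hsq 1) 0
  have h11 := congrFun (congrFun hsq 1) 1
  simp [Matrix.mul_apply, Fin.sum_univ_two, Matrix.one_apply] at h00 h01 h10 h11
  rw [Matrix.det_fin_two] at hdet
  rw [Matrix.trace_fin_two]
  set a := G 0 0
  set b := G 0 1
  set c := G 1 0
  set d := G 1 1
  have e0 : (a + d - 2) * a = 0 := by linear_combination h00 + hdet
  have e1 : (a + d - 2) * d = 0 := by linear_combination h11 + hdet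
  have e2 : (a + d - 2) * b = 0 := by linear_combination h01
  linear_combination d * e0 - c * e2 - (a + d - 2) * hdet

/-- Unipotence of a Hecke representation. -/
theorem isUnipotentOnInertiaAt_of_echelon {p : ℕ} [Fact p.Prime] {N : ℕ} [NeZero N] {S : Finset ℕ}
    {𝒪 : Type} [CommRing 𝒪] [IsDomain 𝒪] [IsDiscreteValuationRing 𝒪]
    [IsAdicComplete (maximalIdeal 𝒪) 𝒪]
    {θ : CuspForm.heckeAlgebra N 2 (↑S : Set ℕ) →+* ResidueField 𝒪}
    {T : Type} [CommRing T] [IsLocalRing T] [IsNoetherianRing T]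
    [IsAdicComplete (maximalIdeal T) T] [Algebra 𝒪 T] [IsLocalHom (algebraMap 𝒪 T)]
    [Module.Finite 𝒪 T] [Module.Free 𝒪 T]
    (hp : (p : 𝒪) ∈ maximalIdeal 𝒪) (hNS : ∀ r : ℕ, r.Prime → r ∣ N → r ∈ S)
    (H : CuspForm.HeckeGaloisRepDatum N (↑S : Set ℕ) 𝒪 θ T)
    {q : ℕ} (hq : q.Prime) (hqp : q ≠ p) (hech : InertiaEchelon N q p) :
    H.ρ.IsUnipotentOnInertiaAt q := by
  intro A hA σ hσ
  haveI : NeZero p := ⟨(Fact.out : p.Prime).ne_zero⟩
  have hpT : (p : T) ∈ maximalIdeal T := FlatModel.natCast_mem_maximalIdeal_of_map hp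
  have hG := GalRep.galoisFacts GalRep.specializationsExist N p
  have hS : GalRep.levelPrimes N ⊆ (↑S : Set ℕ) := fun r hr => hNS r hr.1 hr.2
  let TM := JTors.torsionModel N p
  let M := TM.matModel hG hS
  obtain ⟨ψ⟩ := GalRep.exists_padicHom p T hpT
  obtain ⟨c, hc⟩ := FlatModel.entry_sum_mem M LevelDrop.frobeniusDense H hpT
  set R := GalRep.repMat H.ρ σ with hR
  have hlevel : ∀ n : ℕ, ∑ i : Fin 3, (![1, -2, 1] : Fin 3 → ℤ) i •
      GalRep.redP p n (M.G ((![σ * σ, σ, 1] : Fin 3 → Γℚ) i)) = 0 := fun n => by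
    have hv : ∀ v, TM.projv n ((TM.levelMat n (σ * σ) - TM.levelMat n σ - TM.levelMat n σ + 1) *ᵥ v)
        = TM.projv n ((0 : Matrix _ _ ℤ) *ᵥ v) := fun v => by
      have h := hech A hA σ hσ n _ (TM.pow_smul_projv n v)
      rw [smul_sub, ← mul_smul] at h
      rw [Matrix.zero_mulVec, map_zero, Matrix.add_mulVec, Matrix.sub_mulVec, Matrix.sub_mulVec,
        Matrix.one_mulVec, map_add, map_sub, map_sub, ← TM.smul_projv, ← TM.smul_projv, h]
      abel
    have h' := TM.map_eq_of_projv_eq n hv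
    change (Int.castRingHom (ZMod (p ^ n))).mapMatrix _ =
      (Int.castRingHom (ZMod (p ^ n))).mapMatrix _ at h'
    rw [map_zero, map_add, map_sub, map_sub, map_one] at h'
    simp only [Fin.sum_univ_three, Matrix.cons_val_zero, Matrix.cons_val_one, Matrix.cons_val,
      one_smul]
    show GalRep.redP p n (TM.galMat (σ * σ)) + (-2 : ℤ) • GalRep.redP p n (TM.galMat σ) +
      GalRep.redP p n (TM.galHom 1) = 0
    rw [map_one, map_one, TM.redP_galMat, TM.redP_galMat, neg_smul, two_zsmul]
    refine Eq.trans ?_ h'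
    show _ = (Int.castRingHom (ZMod (p ^ n))).mapMatrix _ - _ - _ + 1
    simp only [RingHom.mapMatrix_apply, Int.coe_castRingHom]
    abel
  have hsq : (R - 1) * (R - 1) = 0 := by
    ext k l
    refine FlatModel.eq_of_forall_sub_mem_pow fun n => ?_
    rw [Matrix.zero_apply, sub_zero]
    have h := hc (n + c) Finset.univ _ _ (hlevel (n + c)) k l
    rw [Nat.add_sub_cancel] at h
    convert h using 1
    simp only [Fin.sum_univ_three, Matrix.cons_val_zero, Matrix.cons_val_one, Matrix.cons_val,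
      one_smul, map_mul, map_one, ← hR]
    rw [show (R - 1) * (R - 1) = R * R + (-2 : ℤ) • R + 1 by noncomm_ring]
  have hdet : R.det = 1 := by
    rw [hR, FlatModel.det_repMat_eq_cyclo M LevelDrop.frobeniusDense H ψ hpT σ,
      GalRep.cyclo_inertia hq hqp hA hσ, Units.val_one, map_one]
  rw [← LinearMap.charpoly_toMatrix (H.ρ.ρ σ) (GalRep.repBasis H.ρ)]
  show R.charpoly = _
  rw [Matrix.charpoly_fin_two, trace_eq_two_of_sq_sub_one R hsq hdet, hdet, map_ofNat, map_one]
  ring

end FLTAgent.Semistable
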