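import Fermat.Agent.Semistable.Rep.Transfer
import Fermat.Agent.Semistable.Rep.Unipotent
import Fermat.Agent.Semistable.X0Node
import Fermat.Agent.Semistable.Count
import Fermat.Agent.Semistable.LevelAutFrob
import Fermat.Agent.Eisen.UnipLevel

/-!
# Inertia and Frobenius at a prime exactly dividing the level

For `q ∥ N = M q` we pass to the level `M k q`, `k = 4` (`k = 9` for `q = 2`), where there are no
elliptic points and the crossing data exist.
-/

set_option autoImplicit false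
set_option linter.style.haveILetI false
set_option linter.unusedSectionVars false
set_option synthInstance.maxHeartbeats 100000

noncomputable section

open ModularCurve AlgebraicCurve IsLocalRing

namespace FLTAgent.Semistable

open FLTAgent.GoodRed FLTAgent.GoodRed.RedDatum FLTAgent.Hecke FLTAgent.FunctionField

local notation "Qbar" => AlgebraicClosure ℚ

theorem nuTwo_eq_zero_of_dvd {d N : ℕ} (h : d ∣ N) (hd : ∀ y : ZMod d, y ^ 2 + 1 ≠ 0) :
    nuTwo N = 0 :=
  Nat.card_eq_zero.2 (Or.inl ⟨fun x => hd (ZMod.castHom h (ZMod d) x.1) (by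
    rw [← map_pow, ← map_one (ZMod.castHom h (ZMod d)), ← map_add, x.2, map_zero])⟩)

theorem nuThree_eq_zero_of_dvd {d N : ℕ} (h : d ∣ N) (hd : ∀ y : ZMod d, y ^ 2 + y + 1 ≠ 0) :
    nuThree N = 0 :=
  Nat.card_eq_zero.2 (Or.inl ⟨fun x => hd (ZMod.castHom h (ZMod d) x.1) (by
    rw [← map_pow, ← map_one (ZMod.castHom h (ZMod d)), ← map_add, ← map_add, x.2, map_zero])⟩)

/-- An auxiliary level prime to `q` without elliptic points. -/
theorem exists_aux_level {q : ℕ} (hq : q.Prime) {M : ℕ} [NeZero M] (hqM : ¬ q ∣ M) :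
    ∃ M₁, ∃ _ : NeZero M₁, M ∣ M₁ ∧ ¬ q ∣ M₁ ∧ nuTwo M₁ = 0 ∧ nuThree M₁ = 0 ∧
      (q = 2 → 3 ∣ M₁) ∧ (q = 3 → 2 ∣ M₁) := by
  rcases eq_or_ne q 2 with rfl | h2
  · exact ⟨M * 9, inferInstance, dvd_mul_right M 9,
      fun h => (hq.dvd_mul.1 h).elim hqM (by decide),
      nuTwo_eq_zero_of_dvd (d := 9) (dvd_mul_left 9 M) (by decide),
      nuThree_eq_zero_of_dvd (d := 9) (dvd_mul_left 9 M) (by decide),
      fun _ => dvd_mul_of_dvd_right (by norm_num) M, fun h => absurd h (by norm_num)⟩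
  · exact ⟨M * 4, inferInstance, dvd_mul_right M 4,
      fun h => (hq.dvd_mul.1 h).elim hqM fun h4 =>
        h2 ((Nat.prime_dvd_prime_iff_eq hq Nat.prime_two).1
          (hq.dvd_of_dvd_pow (n := 2) (by simpa using h4))),
      nuTwo_eq_zero_of_dvd (d := 4) (dvd_mul_left 4 M) (by decide),
      nuThree_eq_zero_of_dvd (d := 4) (dvd_mul_left 4 M) (by decide),
      fun h => absurd h h2, fun _ => dvd_mul_of_dvd_right (by norm_num) M⟩

set_option maxHeartbeats 1600000 in
-- the statement mentions several large fields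
/-- Inertia at a prime `q` exactly dividing `N` is unipotent of echelon two on `l`-power torsion. -/
theorem inertiaEchelon_exact {N q l : ℕ} [NeZero N] (hq : q.Prime) (hl : l.Prime) (hlq : l ≠ q)
    (hqN : q ∣ N) (hq2 : ¬ q ^ 2 ∣ N) : InertiaEchelon N q l := by
  haveI : Fact q.Prime := ⟨hq⟩
  haveI : NeZero q := ⟨hq.ne_zero⟩
  obtain ⟨M, rfl⟩ : ∃ M, N = M * q := ⟨N / q, (Nat.div_mul_cancel hqN).symm⟩
  have hqM : ¬ q ∣ M := fun hd => hq2 (by rw [sq]; exact Nat.mul_dvd_mul_right hd q)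
  haveI : NeZero M := ⟨fun h => NeZero.ne (M * q) (by rw [h, zero_mul])⟩
  obtain ⟨M₁, _, hM, hqM₁, h2, h3, hc2, hc3⟩ := exists_aux_level hq hqM
  refine inertiaEchelon_of_dvd (N' := M₁ * q) hl (Nat.mul_dvd_mul_right hM q) fun A hA => ?_
  haveI : CharP (ResidueField A) q := charP_residue (isResidueMap_residue A) hA hq
  haveI := GoodRed.isAlgClosed_residue A
  haveI := GoodRed.isFunctionField_fullC A hA M₁ hqM₁
  obtain ⟨ι, _, X, hfr, hx, hG₁, hG₂⟩ := exists_x0CrossData hA hqM₁ h2 h3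
    (mul_psi_le_card_crossingSet hA hqM₁ h2 h3 hc2 hc3)
  exact Eisen.unipRoots_of_crossData hfr hx hG₁ hG₂ hl hlq

section frob

variable {M : ℕ} [NeZero M] {q : ℕ} [Fact q.Prime]

local instance instNeZeroRepInstance : NeZero q := ⟨(Fact.out : q.Prime).ne_zero⟩
local instance instAlgebraRepInstance : Algebra (MF Qbar M) (MF Qbar (M * q)) :=
  algebraAlong (alphaMap Qbar M q)
local instance instScalarTowerRepInstance : IsScalarTower Qbar (MF Qbar M) (MF Qbar (M * q)) :=
  isScalarTower_along (alphaMap Qbar M q)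
local instance instFiniteRepInstance : Module.Finite (MF Qbar M) (MF Qbar (M * q)) :=
  finite_alongAlpha M (q := q)

variable {A : ValuationSubring (AlgebraicClosure ℚ)} {hA : A.LiesOverPrime q} {hqM : ¬ q ∣ M}
  [CharP (ResidueField A) q] [IsAlgClosed (ResidueField A)]
  [IsFunctionField (ResidueField A) (modularFunctionFieldFullC (ResidueField A) M)]
  {ι : Type*} [Fintype ι]
  {X : CrossData (x0Datum A hA M hqM) (redInf A hA M hqM) (redZero A hA M hqM)
    (frobC (K := ResidueField A) q M) q ι}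
  (hfr : X.frP = frPlace q M) (hx : Set.range X.x = crossingSet A hA hqM)
  (hG₁ : ∀ σ : Qbar ≃ₐ[ℚ] Qbar, arithmeticGalois (modularFunctionFieldFull M) σ • X.G₁ = X.G₁)
  (hG₂ : ∀ σ : Qbar ≃ₐ[ℚ] Qbar, arithmeticGalois (modularFunctionFieldFull M) σ • X.G₂ = X.G₂)

include hfr hx hG₁ hG₂ in
/-- A Frobenius at `q` acts on the node system as `frobC`'s inverse on the residue curves, and
with an involution of the crossings. -/
theorem exists_frobenius_nodeAut {φ : Qbar ≃ₐ[ℚ] Qbar} (hφ : A.IsFrobeniusAt φ q) :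
    ∃ T : NodeSystem.NodeAut X.nodeSystem,
      T.s = arithmeticGalois (modularFunctionFieldFull (M * q)) φ ∧
        (∀ z, frobC q M (T.σb z) = z ^ q) ∧ (∀ z, frobC q M (T.σb' z) = z ^ q) ∧
          ∀ i, T.perm (T.perm i) = i := by
  set g : A.decompositionSubgroup ℚ := ⟨φ, hφ.mem_decompositionSubgroup⟩
  have hg : residueAut g = frobK (K := ResidueField A) q := RingEquiv.ext fun t => by
    rw [frobK_apply]
    exact hφ.smul_residue_eq t
  refine ⟨levelAut hfr hx hG₁ hG₂ g, rfl, fun z => ?_, fun z => ?_, fun i => ?_⟩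
  · rw [(levelAut_σb hfr hx hG₁ hG₂ g).1, hg]
    exact frobC_fullCAut q M z
  · rw [(levelAut_σb hfr hx hG₁ hG₂ g).2, hg]
    exact frobC_fullCAut q M z
  · refine X.x_inj ?_
    rw [x_levelAut_perm, x_levelAut_perm, ← mul_smul, ← fullCAut_mul]
    refine fullCAut_smul_crossing hA hqM X.R X.hE X.hC _ (fun t ht => ?_)
      (hx ▸ Set.mem_range_self i)
    rw [RingAut.mul_apply, hg, frobK_apply, frobK_apply, ← pow_mul, ← pow_two]
    exact ht

end frob

set_option maxHeartbeats 1600000 in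
-- the statement mentions several large fields
/-- The geometric input of S35. -/
theorem geometryMult : GeometryMult := by
  intro q M' M _ _ _ hq hM hqM' h1 hq' A hA F hF
  subst hM
  haveI : Fact q.Prime := ⟨hq⟩
  obtain ⟨M₁, _, hdvd, hqM₁, h2, h3, hc2, hc3⟩ := exists_aux_level hq hqM'
  haveI : CharP (ResidueField A) q := charP_residue (isResidueMap_residue A) hA hq
  haveI := GoodRed.isAlgClosed_residue A
  haveI := GoodRed.isFunctionField_fullC A hA M₁ hqM₁
  obtain ⟨ι, _, X, hfr, hx, hG₁, hG₂⟩ := exists_x0CrossData hA hqM₁ h2 h3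
    (mul_psi_le_card_crossingSet hA hqM₁ h2 h3 hc2 hc3)
  obtain ⟨T, hTs, hfr₁, hfr₂, hperm⟩ := exists_frobenius_nodeAut hfr hx hG₁ hG₂ hF
  refine ⟨finrankAlong Qbar (levelIncl (q := q) hdvd), ?_, fun m hm x hx0 hx1 hxq =>
    frobRel_kill hdvd hA hqM₁ T hTs hfr₁ hfr₂ hperm hm x hx0 hx1 hxq⟩
  letI := algebraAlong (levelIncl (q := q) hdvd)
  haveI : Module.Finite (MF Qbar (M' * q)) (MF Qbar (M₁ * q)) :=
    (levelFacts Qbar).finite (M' * q) (M₁ * q) 1 (mul_one_dvd_mul hdvd)
  exact (Module.finrank_pos (R := MF Qbar (M' * q)) (M := MF Qbar (M₁ * q))).ne'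

/-- The statement of S35. -/
theorem newformSpecialCharpoly_holds : LevelDrop.NewformSpecialCharpoly :=
  newformSpecialCharpoly geometryMult

end FLTAgent.Semistable
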