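import Fermat.Agent.FlatModel.DetCyclo
import Fermat.Agent.LevelSq.RepStep
import Fermat.Agent.GalRep.Specializations

/-!
# Frobenius at a prime exactly dividing the level of a newform

From the relation `(F² - q²)(F² - 1)² = 0` on torsion with trivial images at the lower level, the
eigenvalues of Frobenius at `q` meet `{±1, ±q}`; the determinant is `q`, so the characteristic
polynomial is `(X ∓ 1)(X ∓ q)`.
-/

set_option autoImplicit false
set_option linter.unusedSectionVars false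

noncomputable section

namespace FLTAgent.Semistable

open Matrix Polynomial ModularCurve AlgebraicCurve

local notation "Qbar" => AlgebraicClosure ℚ
local notation "Γℚ" => AlgebraicClosure ℚ ≃ₐ[ℚ] AlgebraicClosure ℚ

/-- `(F² - q²)(F² - 1)²`. -/
def frobRel {M : ℕ} (q : ℕ) (F : Γℚ) (x : JZero M) : JZero M :=
  (F * F) • ((F * F) • ((F * F) • x - x) - ((F * F) • x - x)) -
    q ^ 2 • ((F * F) • ((F * F) • x - x) - ((F * F) • x - x))

/-- The geometric input at level `M' q`: `(F² - q²)(F² - 1)²` kills, up to a constant, the torsion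
points prime to `q` with trivial images at level `M'`. -/
def GeometryMult : Prop :=
  ∀ (q M' M : ℕ) [NeZero q] [NeZero M] [NeZero M'] (_ : q.Prime) (_ : M = M' * q) (_ : ¬ q ∣ M')
    (h1 : M' * 1 ∣ M) (hq : M' * q ∣ M)
    (A : ValuationSubring Qbar) (_ : A.LiesOverPrime q) (F : Γℚ) (_ : A.IsFrobeniusAt F q),
    ∃ C : ℕ, C ≠ 0 ∧ ∀ m : ℕ, ¬ q ∣ m → ∀ x : JZero M, m • x = 0 →
      LevelSq.pushPic 1 h1 x = 0 → LevelSq.pushPic q hq x = 0 → C • frobRel q F x = 0

/-- A root of `X² - aX + b` among the `λ`'s whose product of `G - λ` kills a vector on which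
`G² - aG + b = 0`. -/
theorem exists_root_of_kill {R : Type*} [CommRing R] [IsDomain R] {r : ℕ}
    (G : Matrix (Fin r) (Fin r) R) (a b : R) :
    ∀ (ls : List R) (e : Fin r → R), e ≠ 0 →
      G *ᵥ (G *ᵥ e) - a • (G *ᵥ e) + b • e = 0 →
      ls.foldl (fun w t => G *ᵥ w - t • w) e = 0 → ∃ t ∈ ls, t * t - a * t + b = 0 := by
  intro ls
  induction ls with
  | nil => intro e he _ h; exact absurd h he
  | cons t ts ih =>
    intro e he hrel h
    rw [List.foldl_cons] at h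
    by_cases hw : G *ᵥ e - t • e = 0
    · refine ⟨t, List.mem_cons_self .., ?_⟩
      rw [sub_eq_zero] at hw
      rw [hw, Matrix.mulVec_smul, hw, smul_smul, smul_smul, ← sub_smul, ← add_smul] at hrel
      exact (smul_eq_zero.mp hrel).resolve_right he
    · obtain ⟨s, hs, hs0⟩ := ih _ hw (by
        have h1 := congrArg (fun v => G *ᵥ v - t • v) hrel
        simp only [Matrix.mulVec_add, Matrix.mulVec_sub, Matrix.mulVec_smul, Matrix.mulVec_zero,
          smul_zero, sub_zero, smul_add, smul_sub] at h1 ⊢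
        rw [smul_comm a t (G *ᵥ e), smul_comm b t e]
        linear_combination (norm := abel) h1) h
      exact ⟨s, List.mem_cons_of_mem _ hs, hs0⟩

section Rep

variable {M p : ℕ} [NeZero M] [Fact p.Prime] {S : Finset ℕ}
  {R : Type} [CommRing R] [IsDomain R] [IsDiscreteValuationRing R]
  [IsAdicComplete (IsLocalRing.maximalIdeal R) R] [CharZero R]
  (Mx : GalRep.MatModel M p ↑S) (hd : GalRep.FrobeniusDense) (ψ : ℤ_[p] →+* R)
  (hp : (p : R) ∈ IsLocalRing.maximalIdeal R)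
  (χ : CuspForm.heckeAlgebra M 2 (↑S : Set ℕ) →+* R) (ρ : GaloisRepAdic R)
  (hρ : ∀ (ℓ : ℕ) (hℓ : ℓ.Prime) (hℓN : ¬ ℓ ∣ M) (hℓS : ℓ ∉ (↑S : Set ℕ)),
    ∀ A : ValuationSubring Qbar, A.LiesOverPrime ℓ → ∀ σ : Γℚ, A.IsFrobeniusAt σ ℓ →
      LinearMap.charpoly (ρ.ρ σ) =
        X ^ 2 - C (χ (CuspForm.heckeAlgebra.T hℓ hℓN hℓS)) * X + C ((ℓ : R)))

include hd hp hρ

/-- Approximation by a Frobenius element, for the matrix model and the representation. -/
theorem exists_point_approx (g : Γℚ) (n : ℕ) :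
    ∃ t : CuspForm.heckeAlgebra M 2 (↑S : Set ℕ),
      GalRep.redP p n (Mx.phi g) = GalRep.redP p n (GalRep.castP p (Mx.Tm t)) ∧
      ρ.trace g - χ t ∈ IsLocalRing.maximalIdeal R ^ n ∧
      (GalRep.repMat ρ g).det - ψ (GalRep.cyclo p g : ℤ_[p]) ∈
        IsLocalRing.maximalIdeal R ^ n := by
  obtain ⟨L₁, hL₁, h₁⟩ := ρ.isAdicContinuous n
  obtain ⟨L₂, hL₂, h₂⟩ := GalRep.cyclo_continuous p n
  obtain ⟨ℓ, hℓ, hℓN, hℓS, A, hA, σ, hσ, hℓp, hag, happ⟩ := Mx.exists_approx hd g n (L₁ ⊔ L₂)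
  have hfix := (GalRep.fixing_of_agree hag).1
  have hv : ∀ v, ρ.ρ (g⁻¹ * σ) v - v ∈
      IsLocalRing.maximalIdeal R ^ n • (⊤ : Submodule R ρ.V) :=
    h₁ _ fun x hx => hfix x (le_sup_left (b := L₂) hx)
  have hchar := hρ ℓ hℓ hℓN hℓS A hA σ hσ
  refine ⟨_, happ, ?_, ?_⟩
  · rw [← neg_mem_iff, neg_sub, ← GalRep.trace_eq_of_charpoly ρ hchar]
    exact GalRep.trace_sub_mem ρ hv
  · have hd1 := FlatModel.det_sub_mem ρ hv
    rw [FlatModel.det_eq_of_charpoly ρ hchar] at hd1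
    have hd2 : (ℓ : R) - ψ (GalRep.cyclo p g : ℤ_[p]) ∈ IsLocalRing.maximalIdeal R ^ n := by
      rw [← map_natCast ψ, ← GalRep.cyclo_frobenius hℓ hℓp hA hσ, ← map_sub]
      refine GalRep.padicHom_mem_pow ψ hp ?_
      rw [map_sub, show σ = g * (g⁻¹ * σ) by group, map_mul, Units.val_mul, map_mul,
        h₂ _ fun x hx => hfix x (le_sup_right (a := L₁) hx), mul_one, sub_self]
    have := Ideal.sub_mem _ hd2 hd1
    rwa [sub_sub_sub_cancel_left] at this

include Mx χ in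
theorem det_point (g : Γℚ) : (GalRep.repMat ρ g).det = ψ (GalRep.cyclo p g : ℤ_[p]) :=
  FlatModel.eq_of_forall_sub_mem_pow fun n => by
    obtain ⟨t, -, -, h⟩ := exists_point_approx Mx hd ψ hp χ ρ hρ g n
    exact h

/-- `g + c(g) g⁻¹` is the trace on the eigenvectors. -/
theorem phi_mulVec_eigen (g : Γℚ) {e : Fin Mx.r → R} (he : ∀ t, Mx.opR R t *ᵥ e = χ t • e) :
    ψ.mapMatrix (Mx.phi g) *ᵥ e = ρ.trace g • e := by
  funext j
  refine FlatModel.eq_of_forall_sub_mem_pow fun n => ?_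
  obtain ⟨t, happ, htr, -⟩ := exists_point_approx Mx hd ψ hp χ ρ hρ g n
  have h2 : ∀ a b, (ψ.mapMatrix (Mx.phi g) - Mx.opR R t) a b ∈
      IsLocalRing.maximalIdeal R ^ n := by
    intro a b
    rw [← Mx.map_castP ψ]
    exact Mx.sub_mem_of_redP ψ hp happ a b
  have h3 : ((ψ.mapMatrix (Mx.phi g) - Mx.opR R t) *ᵥ e) j ∈ IsLocalRing.maximalIdeal R ^ n := by
    simp only [Matrix.mulVec, dotProduct]
    exact Ideal.sum_mem _ fun b _ => Ideal.mul_mem_right _ _ (h2 j b)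
  rw [Matrix.sub_mulVec, he, Pi.sub_apply, Pi.smul_apply, smul_eq_mul] at h3
  rw [Pi.smul_apply, smul_eq_mul]
  convert sub_mem h3 (Ideal.mul_mem_right (e j) _ htr) using 1
  ring

/-- An eigenvector on which Frobenius satisfies both quadratic and the geometric relation. -/
theorem exists_eigen_killed {q : ℕ} (hq : q.Prime) (hqp : q ≠ p) {A : ValuationSubring Qbar}
    (hA : A.LiesOverPrime q) {F : Γℚ} (hF : A.IsFrobeniusAt F q)
    (a : CuspForm.heckeAlgebra M 2 (↑S : Set ℕ)) (hχa : χ a ≠ 0)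
    (hkill : (Mx.G F * Mx.G F - ((q : ℤ_[p]) ^ 2) • 1) * ((Mx.G F * Mx.G F - 1) *
      ((Mx.G F * Mx.G F - 1) * GalRep.castP p (Mx.Tm a))) = 0) :
    ∃ e : Fin Mx.r → R, e ≠ 0 ∧
      ψ.mapMatrix (Mx.G F) *ᵥ (ψ.mapMatrix (Mx.G F) *ᵥ e) -
        ρ.trace F • (ψ.mapMatrix (Mx.G F) *ᵥ e) + (q : R) • e = 0 ∧
      ([1, -1, 1, -1, (q : R), -(q : R)]).foldl
        (fun w t => ψ.mapMatrix (Mx.G F) *ᵥ w - t • w) e = 0 := by
  -- an eigenvector
  obtain ⟨e, he0, he⟩ := Mx.exists_eigen_lattice χ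
  set G' := ψ.mapMatrix (Mx.G F) with hG'
  have hrel : G' *ᵥ (G' *ᵥ e) - ρ.trace F • (G' *ᵥ e) + (q : R) • e = 0 := by
    have h2 := phi_mulVec_eigen Mx hd ψ hp χ ρ hρ F he
    have h3 := congrArg (fun x => G' *ᵥ x) h2
    rw [GalRep.MatModel.phi, GalRep.cyclo_frobenius hq hqp hA hF, map_add] at h3
    simp only [Matrix.add_mulVec, Matrix.mulVec_add, Matrix.mulVec_smul, ← hG'] at h3
    rw [← h3]
    have hinv : G' *ᵥ (ψ.mapMatrix ((q : ℤ_[p]) • Mx.G F⁻¹) *ᵥ e) = (q : R) • e := by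
      rw [Algebra.smul_def, map_mul, map_natCast, map_natCast, Matrix.mulVec_mulVec,
        ← mul_assoc, ← (Nat.cast_commute q G').eq, mul_assoc, hG', ← map_mul, ← map_mul,
        mul_inv_cancel, map_one, map_one, mul_one, ← nsmul_one, Matrix.smul_mulVec,
        Matrix.one_mulVec, Nat.cast_smul_eq_nsmul]
    rw [hinv]
    abel
  have hP : ([1, -1, 1, -1, (q : R), -(q : R)]).foldl (fun w t => G' *ᵥ w - t • w) e = 0 := by
    have h := congrArg (fun X => ψ.mapMatrix X *ᵥ e) hkill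
    have hZ : ψ.mapMatrix (GalRep.castP p (Mx.Tm a)) *ᵥ e = χ a • e :=
      (Mx.map_castP ψ a).symm ▸ he a
    simp only [map_mul, map_zero, Matrix.zero_mulVec, ← Matrix.mulVec_mulVec, hZ,
      Matrix.mulVec_smul] at h
    have h' := (smul_eq_zero.mp h).resolve_left hχa
    rw [← h']
    have hsc : ψ.mapMatrix (((q : ℤ_[p]) ^ 2) • (1 : Matrix (Fin Mx.r) (Fin Mx.r) ℤ_[p])) =
        ((q : R) ^ 2) • 1 := by
      ext i j
      by_cases hij : i = j <;> simp [hij]
    simp only [List.foldl_cons, List.foldl_nil, map_sub, map_mul, map_one, hsc, ← hG',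
      Matrix.sub_mulVec, Matrix.one_mulVec, Matrix.smul_mulVec, ← Matrix.mulVec_mulVec,
      Matrix.mulVec_sub, Matrix.mulVec_smul]
    simp only [one_smul, neg_smul, sub_neg_eq_add, Matrix.mulVec_add, Matrix.mulVec_sub,
      Matrix.mulVec_smul, Matrix.mulVec_neg, smul_sub, smul_add, smul_neg, smul_smul, sq, neg_mul, mul_neg, neg_smul]
    abel
  exact ⟨e, he0, hrel, hP⟩

end Rep

variable {M p : ℕ} [NeZero M] [Fact p.Prime] {S : Finset ℕ}

/-- The characteristic polynomial from the geometric input. -/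
theorem charpoly_frobenius_special (hgeom : GeometryMult)
    {g : CuspForm (CongruenceSubgroup.Gamma0 M) 2} (hg : g.IsNewform)
    (hpS : p ∈ S) (hMS : ∀ r : ℕ, r.Prime → r ∣ M → r ∈ S)
    {R : Type} [CommRing R] [IsDomain R] [IsDiscreteValuationRing R]
    [IsAdicComplete (IsLocalRing.maximalIdeal R) R] [CharZero R]
    (hpR : (p : R) ∈ IsLocalRing.maximalIdeal R)
    (chig : CuspForm.heckeAlgebra M 2 (↑S : Set ℕ) →+* ℂ)
    (hchig : ∀ (ℓ : ℕ) (hℓ : ℓ.Prime) (hℓM : ¬ ℓ ∣ M) (hℓS : ℓ ∉ (↑S : Set ℕ)),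
      chig (CuspForm.heckeAlgebra.T hℓ hℓM hℓS) = ModularFormClass.qCoeff g ℓ)
    (iota : chig.range →+* R) (ρ : GaloisRepAdic R)
    (hρ : ∀ (ℓ : ℕ) (hℓ : ℓ.Prime) (hℓN : ¬ ℓ ∣ M) (hℓS : ℓ ∉ (↑S : Set ℕ)),
      ∀ A : ValuationSubring Qbar, A.LiesOverPrime ℓ → ∀ σ : Γℚ, A.IsFrobeniusAt σ ℓ →
        LinearMap.charpoly (ρ.ρ σ) = X ^ 2 -
          C ((iota.comp chig.rangeRestrict) (CuspForm.heckeAlgebra.T hℓ hℓN hℓS)) * X + C ((ℓ : R)))
    {q : ℕ} (hq : q.Prime) (hqp : q ≠ p) (hqM : q ∣ M) (hq2 : ¬ q ^ 2 ∣ M)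
    (A : ValuationSubring Qbar) (hA : A.LiesOverPrime q) (F : Γℚ) (hF : A.IsFrobeniusAt F q) :
    LinearMap.charpoly (ρ.ρ F) = X ^ 2 - C ((q : R) + 1) * X + C ((q : R)) ∨
      LinearMap.charpoly (ρ.ρ F) = X ^ 2 + C ((q : R) + 1) * X + C ((q : R)) := by
  haveI : NeZero p := ⟨(Fact.out : p.Prime).ne_zero⟩
  haveI : NeZero q := ⟨hq.ne_zero⟩
  obtain ⟨M', hM⟩ : ∃ M', M = M' * q := ⟨M / q, (Nat.div_mul_cancel hqM).symm⟩
  have hM' : ¬ q ∣ M' := fun hd => hq2 (by rw [hM, sq]; exact Nat.mul_dvd_mul_right hd q)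
  haveI : NeZero M' := ⟨fun h => NeZero.ne M (by rw [hM, h, zero_mul])⟩
  have h1 : M' * 1 ∣ M := ⟨q, by rw [hM, mul_one]⟩
  have hq' : M' * q ∣ M := dvd_of_eq hM.symm
  have hLM : M' ∣ M := ⟨q, hM⟩
  have hne : M' ≠ M := fun h =>
    hq.one_lt.ne' ((mul_eq_left₀ (NeZero.ne M')).mp (hM.symm.trans h.symm))
  obtain ⟨a, ha, hachig⟩ :=
    LevelSq.exists_op GalRep.specializationsExist hg S hMS hLM hne chig hchig
  set χ := iota.comp chig.rangeRestrict
  have hχa : χ a ≠ 0 := fun h => hachig (by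
    have := LevelSq.injective_of_chig iota (h.trans (map_zero iota).symm)
    exact congrArg Subtype.val this)
  obtain ⟨C₀, hC₀, hgeo⟩ := hgeom q M' M hq hM hM' h1 hq' A hA F hF
  let TM := JTors.torsionModel M p
  let TL := JTors.torsionModel M' p
  have hGM := GalRep.galoisFacts GalRep.specializationsExist M p
  have hGL := GalRep.galoisFacts GalRep.specializationsExist M' p
  have hSM : GalRep.levelPrimes M ⊆ (↑S : Set ℕ) := fun r hr => hMS r hr.1 hr.2
  have hSL : GalRep.levelPrimes M' ⊆ (↑S : Set ℕ) := fun r hr =>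
    hMS r hr.1 (hr.2.trans hLM)
  let Mx := TM.matModel hGM hSM
  obtain ⟨ψ⟩ := GalRep.exists_padicHom p R hpR
  -- the relation on the Tate module
  let Z := LevelSq.opMat TM hSM a
  set G : Matrix (Fin (Module.finrank ℤ TM.H)) (Fin (Module.finrank ℤ TM.H)) ℤ_[p] :=
    TM.galMat F with hG
  have hkill : (G * G - ((q : ℤ_[p]) ^ 2) • 1) * ((G * G - 1) * ((G * G - 1) *
      GalRep.castP p Z)) = 0 := by
    refine (smul_eq_zero.mp (GalRep.redP_ext (p := p)
      (X := (C₀ : ℤ_[p]) • ((G * G - ((q : ℤ_[p]) ^ 2) • 1) * ((G * G - 1) * ((G * G - 1) *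
        GalRep.castP p Z)))) (Y := 0) fun n => ?_)).resolve_left (Nat.cast_ne_zero.mpr hC₀)
    set B := TM.levelMat n F * TM.levelMat n F with hB
    have hv : ∀ v, TM.projv n (((C₀ : ℤ) • ((B - ((q : ℤ) ^ 2) • 1) * ((B - 1) * ((B - 1) * Z))))
        *ᵥ v) = TM.projv n ((0 : Matrix _ _ ℤ) *ᵥ v) := fun v => by
      have hqm : ¬ q ∣ p ^ n := fun h =>
        hqp ((Nat.prime_dvd_prime_iff_eq hq (Fact.out : p.Prime)).mp (hq.dvd_of_dvd_pow h))
      have h := hgeo (p ^ n) hqm (TM.projv n (Z *ᵥ v)) (TM.pow_smul_projv n _)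
        (LevelSq.push_eq_zero TM hGM hGL hpS hSM hSL 1 h1 ha TL n v)
        (LevelSq.push_eq_zero TM hGM hGL hpS hSM hSL q hq' ha TL n v)
      have hS2 : ∀ u, (F * F) • TM.projv n u = TM.projv n (B *ᵥ u) := fun u => by
        rw [mul_smul, TM.smul_projv, TM.smul_projv, Matrix.mulVec_mulVec]
      simp only [frobRel, hS2, ← map_sub, ← map_nsmul, ← Matrix.mulVec_mulVec] at h
      rw [Matrix.zero_mulVec, map_zero, ← h, ← natCast_zsmul, ← natCast_zsmul]
      refine congrArg (TM.projv n) ?_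
      simp only [Matrix.smul_mulVec, ← Matrix.mulVec_mulVec, Matrix.sub_mulVec, Matrix.one_mulVec,
        Matrix.mulVec_sub, Nat.cast_pow, smul_sub]
      abel
    have h' := TM.map_eq_of_projv_eq n hv
    change (Int.castRingHom (ZMod (p ^ n))).mapMatrix _ =
      (Int.castRingHom (ZMod (p ^ n))).mapMatrix _ at h'
    rw [map_zero] at h' ⊢
    rw [← h', hG, hB]
    simp only [Algebra.smul_def, mul_one, map_mul, map_sub, map_one, map_pow, map_natCast,
      eq_intCast, Int.cast_natCast]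
    show _ * ((GalRep.redP p n (TM.galMat F) * GalRep.redP p n (TM.galMat F) - _) * _) = _
    rw [TM.redP_galMat, GalRep.redP_castP]
    rfl
  obtain ⟨e, he0, hrel, hP⟩ := exists_eigen_killed Mx LevelDrop.frobeniusDense ψ hpR χ ρ hρ hq hqp
    hA hF a hχa hkill
  obtain ⟨t, ht, ht0⟩ := exists_root_of_kill _ (ρ.trace F) (q : R) _ e he0 hrel hP
  have hdet : (GalRep.repMat ρ F).det = (q : R) := by
    rw [det_point Mx LevelDrop.frobeniusDense ψ hpR χ ρ hρ F,
      GalRep.cyclo_frobenius hq hqp hA hF, map_natCast]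
  have hq1 : (q : R) ≠ 0 := Nat.cast_ne_zero.mpr hq.ne_zero
  have htr : ρ.trace F = (q : R) + 1 ∨ ρ.trace F = -((q : R) + 1) := by
    simp only [List.mem_cons, List.not_mem_nil, or_false] at ht
    rcases ht with rfl | rfl | rfl | rfl | rfl | rfl
    · left; linear_combination -ht0
    · right; linear_combination ht0
    · left; linear_combination -ht0
    · right; linear_combination ht0
    · left; exact mul_left_cancel₀ hq1 (by linear_combination -ht0)
    · right; exact mul_left_cancel₀ hq1 (by linear_combination ht0)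
  rw [← LinearMap.charpoly_toMatrix (ρ.ρ F) (GalRep.repBasis ρ)]
  show (GalRep.repMat ρ F).charpoly = _ ∨ (GalRep.repMat ρ F).charpoly = _
  rw [Matrix.charpoly_fin_two, GalRep.trace_repMat, hdet]
  rcases htr with h | h <;> rw [h]
  · exact Or.inl rfl
  · right; rw [map_neg, neg_mul, sub_neg_eq_add]

/-- The statement of S35 from the geometric input. -/
theorem newformSpecialCharpoly (hgeom : GeometryMult) : LevelDrop.NewformSpecialCharpoly := by
  intro M _ g hg lam _ S O' _ _ _ _ _ _ hlam chig hchig iota hlamS hMS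
  obtain ⟨Mx⟩ := LevelSq.exists_matModel GalRep.specializationsExist M lam S hMS
  obtain ⟨ρ, hρ⟩ := LevelSq.exists_galoisRep_same Mx LevelDrop.frobeniusDense hlamS O' hlam
    (iota.comp chig.rangeRestrict)
  exact ⟨O', inferInstance, inferInstance, inferInstance, inferInstance, inferInstance,
    inferInstance, Algebra.id O', Module.Finite.self O', ⟨fun a ha => ha⟩, fun a b h => h, ρ,
    hρ, fun q hq hqlam hqM hq2 A hA F hF =>
      charpoly_frobenius_special hgeom hg hlamS hMS hlam chig hchig iota ρ hρ hq hqlam hqM hq2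
        A hA F hF⟩

end FLTAgent.Semistable
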