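import Fermat.Agent.Semistable.LevelDatum
import Fermat.Agent.Semistable.TorsionInj

/-!
# The two reductions under a change of the auxiliary level

The inclusion `F (M q) → F (M' q)` for `M ∣ M'` commutes with both reductions.
-/

set_option autoImplicit false
set_option linter.style.haveILetI false
set_option linter.unusedSectionVars false
set_option synthInstance.maxHeartbeats 100000

noncomputable section

open ModularCurve AlgebraicCurve IsLocalRing

namespace FLTAgent.Semistable

open FLTAgent.GoodRed FLTAgent.GoodRed.RedDatum FLTAgent.Hecke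

local notation "Qbar" => AlgebraicClosure ℚ

/-- An element with a nonzero reduction after a compatible extension reduces below. -/
theorem exists_red_of_map {L k : Type*} [Field L] [Field k] {A : ValuationSubring L} {π : A →+* k}
    {F F₁ C C₁ : Type*} [Field F] [Algebra L F] [Field F₁] [Algebra L F₁] [Field C] [Algebra k C]
    [Field C₁] [Algebra k C₁] (D : RedDatum A π F C) (D₁ : RedDatum A π F₁ C₁)
    (ι : F →ₐ[L] F₁) (j : C →ₐ[k] C₁) (hred : ∀ f z, D.Red f z → D₁.Red (ι f) (j z))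
    {f : F} {a : C₁} (ha : D₁.Red (ι f) a) (ha0 : a ≠ 0) :
    ∃ a₀, D.Red f a₀ ∧ j a₀ = a := by
  have hf : f ≠ 0 := fun h => ha0 (by rw [h, map_zero] at ha; exact ha.unique red_zero)
  obtain ⟨c, z, hc, hz, hzr⟩ := D.exists_scale hf
  have h1 := hred _ _ hzr
  rw [map_smul] at h1
  have hjz : j z ≠ 0 := (map_ne_zero j).2 hz
  have hcA : c ∈ A := mem_of_smul_mem_of_red D₁ ha ha0 h1.mem
  have h2 : j z = π ⟨c, hcA⟩ • a := h1.unique (red_smul (⟨c, hcA⟩ : A) ha)
  have hu : π ⟨c, hcA⟩ ≠ 0 := fun h0 => hjz (by rw [h2, h0, zero_smul])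
  have hval : A.valuation c = 1 := (D.isResidue.ne_zero_iff ⟨c, hcA⟩).1 hu
  have hcA' : c⁻¹ ∈ A := (A.valuation_le_one_iff _).1 (by rw [map_inv₀, hval, inv_one])
  refine ⟨π ⟨c⁻¹, hcA'⟩ • z, ?_, ?_⟩
  · have := red_smul (⟨c⁻¹, hcA'⟩ : A) hzr
    rwa [smul_smul, inv_mul_cancel₀ hc, one_smul] at this
  · rw [map_smul, h2, smul_smul, ← map_mul,
      show (⟨c⁻¹, hcA'⟩ : A) * ⟨c, hcA⟩ = 1 from Subtype.ext (inv_mul_cancel₀ hc), map_one,
      one_smul]

variable {q : ℕ} [Fact q.Prime] {M M₁ : ℕ} [NeZero M] [NeZero M₁] (hM : M ∣ M₁)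

include hM in
theorem mul_one_dvd_mul : M * q * 1 ∣ M₁ * q := by
  rw [mul_one]; exact Nat.mul_dvd_mul_right hM q

local instance : NeZero q := ⟨(Fact.out : q.Prime).ne_zero⟩

/-- The inclusion of the levels. -/
def levelIncl : MF Qbar (M * q) →ₐ[Qbar] MF Qbar (M₁ * q) := degMap Qbar 1 (mul_one_dvd_mul hM)

theorem coe_levelIncl (f : MF Qbar (M * q)) :
    ((levelIncl hM f : MF Qbar (M₁ * q)) : LaurentSeries Qbar) = (f : LaurentSeries Qbar) := by
  rw [levelIncl, coe_degMap, qExpand_one_apply]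

include hM in
theorem not_dvd_of_dvd (hqM₁ : ¬ q ∣ M₁) : ¬ q ∣ M := fun h => hqM₁ (h.trans hM)

/-- The inclusion commutes with the involutions. -/
theorem swapW_levelIncl (hqM₁ : ¬ q ∣ M₁) (f : MF Qbar (M * q)) :
    swapW M₁ hqM₁ (levelIncl hM f) = levelIncl hM (swapW M (not_dvd_of_dvd hM hqM₁) f) := by
  have hqM := not_dvd_of_dvd hM hqM₁
  have h1 : M * 1 ∣ M₁ := by rwa [mul_one]
  have hα : ∀ u, levelIncl hM (alphaMap Qbar M q u) =
      alphaMap Qbar M₁ q (degMap Qbar 1 h1 u) := fun u => Subtype.ext (by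
    rw [coe_levelIncl, coe_alphaMap, coe_alphaMap, coe_degMap, qExpand_one_apply])
  have hβ : ∀ u, levelIncl hM (betaMap Qbar M q u) =
      betaMap Qbar M₁ q (degMap Qbar 1 h1 u) := fun u => Subtype.ext (by
    rw [coe_levelIncl, coe_betaMap, coe_betaMap, coe_degMap, qExpand_one_apply])
  have hj : jMF Qbar (M * q) = alphaMap Qbar M q (jMF Qbar M) :=
    Subtype.ext (by rw [coe_alphaMap]; rfl)
  have hN : (⟨jd Qbar (M * q), jd_mem Qbar dvd_rfl⟩ : MF Qbar (M * q)) =
      betaMap Qbar M q ⟨jd Qbar M, jd_mem Qbar dvd_rfl⟩ := Subtype.ext (by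
    rw [coe_betaMap]
    show jd Qbar (M * q) = qExpand Qbar q (jd Qbar M)
    rw [jd, jd, qExpand_qExpand]
    exact qExpand_congr (mul_comm M q) _)
  refine DFunLike.congr_fun (algHom_MF_ext
    (f := (swapW M₁ hqM₁).toAlgHom.comp (levelIncl hM))
    (g := (levelIncl hM).comp (swapW M hqM).toAlgHom) ?_ ?_) f
  · show swapW M₁ hqM₁ (levelIncl hM (jMF Qbar (M * q))) =
      levelIncl hM (swapW M hqM (jMF Qbar (M * q)))
    rw [hj, hα, swapW_alpha, swapW_alpha, hβ]
  · show swapW M₁ hqM₁ (levelIncl hM ⟨jd Qbar (M * q), jd_mem Qbar dvd_rfl⟩) =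
      levelIncl hM (swapW M hqM ⟨jd Qbar (M * q), jd_mem Qbar dvd_rfl⟩)
    rw [hN, hβ, swapW_beta, swapW_beta, hα]

section red

variable {A : ValuationSubring (AlgebraicClosure ℚ)} (hA : A.LiesOverPrime q)
  [CharP (ResidueField A) q] [IsAlgClosed (ResidueField A)] (hqM₁ : ¬ q ∣ M₁)

include hM in
theorem fullC_le (K : Type*) [Field K] :
    modularFunctionFieldFullC K M ≤ modularFunctionFieldFullC K M₁ := by
  refine IntermediateField.adjoin_le_iff.2 ?_
  rintro x ⟨d, hd0, hd, rfl⟩
  exact jqModCd_mem_full K M₁ (hd.trans hM)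

/-- The inclusion of the residue fields. -/
def residueIncl (K : Type*) [Field K] :
    modularFunctionFieldFullC K M →ₐ[K] modularFunctionFieldFullC K M₁ :=
  IntermediateField.inclusion (fullC_le hM K)

theorem coe_residueIncl {K : Type*} [Field K] (z : modularFunctionFieldFullC K M) :
    ((residueIncl hM K z : modularFunctionFieldFullC K M₁) : LaurentSeries K) =
      (z : LaurentSeries K) := by
  rw [residueIncl]
  exact IntermediateField.coe_inclusion _ z

theorem red_levelIncl (f : MF Qbar (M * q)) (z : modularFunctionFieldFullC (ResidueField A) M)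
    (h : (redInf A hA M (not_dvd_of_dvd hM hqM₁)).Red f z) :
    (redInf A hA M₁ hqM₁).Red (levelIncl hM f) (residueIncl hM (ResidueField A) z) := by
  rw [redInf_iff] at h ⊢
  rw [coe_levelIncl, coe_residueIncl]
  exact h

theorem red_levelIncl' (f : MF Qbar (M * q)) (z : modularFunctionFieldFullC (ResidueField A) M)
    (h : (redZero A hA M (not_dvd_of_dvd hM hqM₁)).Red f z) :
    (redZero A hA M₁ hqM₁).Red (levelIncl hM f) (residueIncl hM (ResidueField A) z) := by
  rw [redZero_iff] at h ⊢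
  rw [swapW_levelIncl]
  exact red_levelIncl hM hA hqM₁ _ _ h

variable [PerfectRing (ResidueField A) q]

theorem residueIncl_frobC (z : modularFunctionFieldFullC (ResidueField A) M) :
    residueIncl hM (ResidueField A) (frobC q M z) =
      frobC q M₁ (residueIncl hM (ResidueField A) z) :=
  Subtype.ext (by rw [coe_residueIncl, coe_frobC, coe_frobC, coe_residueIncl])

end red

end FLTAgent.Semistable
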