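import Fermat.Agent.Semistable.OldNull
import Fermat.Agent.Semistable.Rep.Lift
import Fermat.Agent.Semistable.Rep.Frobenius
import Fermat.Agent.Eisen.LevelPull
import Fermat.Agent.Eisen.UnipJZero

/-!
# `(F² - q²)(F² - 1)²` on classes with trivial images, through an auxiliary level

The node system lives at an auxiliary level `M₁ q`; the norms to the lower level are taken at level
`M q`, and the relation comes down by pushing forward.
-/

set_option autoImplicit false
set_option linter.style.haveILetI false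
set_option linter.unusedSectionVars false
set_option synthInstance.maxHeartbeats 100000
set_option maxHeartbeats 1000000

noncomputable section

open ModularCurve AlgebraicCurve IsLocalRing

namespace FLTAgent.Semistable

open FLTAgent.GoodRed FLTAgent.GoodRed.RedDatum FLTAgent.Hecke FLTAgent.FunctionField
  SemilinearAut

-- shortcut for the search of the algebra structures on `modularFunctionFieldFullC`
local instance (priority := high) instAlgebraFullCRepTransfer {K : Type*} [Field K]
    (S : IntermediateField K (LaurentSeries K)) : Algebra K S :=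
  SubalgebraClass.toAlgebra S

local notation "Qbar" => AlgebraicClosure ℚ
local notation "Γℚ" => AlgebraicClosure ℚ ≃ₐ[ℚ] AlgebraicClosure ℚ

variable {q : ℕ} [Fact q.Prime] [NeZero q]

/-- The class of a divisor is zero iff the divisor is principal. -/
theorem pic0_mk_eq_zero_iff {K F : Type*} [Field K] [Field F] [Algebra K F]
    {D : Divisor.degZero (K := K) (F := F)} :
    Pic0.mk D = 0 ↔ (D : Divisor K F) ∈ Divisor.principal (K := K) (F := F) := by
  rw [Pic0.mk, QuotientAddGroup.eq_zero_iff, AddSubgroup.mem_addSubgroupOf]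

/-- `(g - Q²)(g - 1)²` on divisors. -/
def relDiv {K F : Type*} [Field K] [Field F] [Algebra K F] (Q : ℕ) (g : SemilinearAut K F)
    (X : Divisor K F) : Divisor K F :=
  g • (g • (g • X - X) - (g • X - X)) - Q ^ 2 • (g • (g • X - X) - (g • X - X))

/-- The relation on divisor classes of degree zero. -/
theorem exists_mk_relDiv {K F : Type*} [Field K] [Field F] [Algebra K F] (Q : ℕ)
    (g : SemilinearAut K F) (X : Divisor.degZero (K := K) (F := F)) :
    ∃ Y : Divisor.degZero (K := K) (F := F),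
      g • (g • (g • Pic0.mk X - Pic0.mk X) - (g • Pic0.mk X - Pic0.mk X)) -
          Q ^ 2 • (g • (g • Pic0.mk X - Pic0.mk X) - (g • Pic0.mk X - Pic0.mk X)) = Pic0.mk Y ∧
        (Y : Divisor K F) = relDiv Q g (X : Divisor K F) := by
  set s := SemilinearAut.degZeroSMulHom g
  refine ⟨s (s (s X - X) - (s X - X)) - Q ^ 2 • (s (s X - X) - (s X - X)), ?_, ?_⟩
  · have hsub : ∀ Z W : Divisor.degZero (K := K) (F := F),
        Pic0.mk (Z - W) = Pic0.mk Z - Pic0.mk W := fun Z W =>
      map_sub (QuotientAddGroup.mk' _) Z W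
    have hns : ∀ (n : ℕ) (Z : Divisor.degZero (K := K) (F := F)),
        Pic0.mk (n • Z) = n • Pic0.mk Z := fun n Z =>
      map_nsmul (QuotientAddGroup.mk' _) n Z
    have hsmul : ∀ Z : Divisor.degZero (K := K) (F := F), g • Pic0.mk Z = Pic0.mk (s Z) :=
      fun Z => SemilinearAut.pic0_smul_mk g Z
    simp only [hsub, hns, ← hsmul]
  · simp only [s, relDiv, AddSubgroup.coe_sub, AddSubmonoidClass.coe_nsmul,
      SemilinearAut.coe_degZeroSMulHom]

theorem frobRel_eq_smul {N : ℕ} [NeZero N] (Q : ℕ) (σ : Γℚ) (x : JZero N) :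
    frobRel Q σ x =
      (let g := arithmeticGalois (L := Qbar) (modularFunctionFieldFull N) (σ * σ)
       g • (g • (g • x - x) - (g • x - x)) - Q ^ 2 • (g • (g • x - x) - (g • x - x))) := rfl

section incl

variable {L k : Type*} [Field L] [Field k] {A : ValuationSubring L} {π : A →+* k}
  {F₀ F C : Type*} [Field F₀] [Algebra L F₀] [Field F] [Algebra L F] [Field C] [Algebra k C]
  [IsFunctionField L F₀] [IsFunctionField L F] [IsFunctionField k C] [IsAlgClosed L] [IsAlgClosed k]
  {D D' : RedDatum A π F C} {ι : Type*} [Fintype ι] {N : NodeSystem D D' ι}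

/-- The Frobenius relation for classes pulled back from a smaller field. -/
theorem relDiv_principal_of_incl (T : NodeSystem.NodeAut N) (hA : IsRankOne A)
    (hA0 : ∃ ϖ : L, ϖ ≠ 0 ∧ ϖ ∈ A.nonunits) {e : F} (he : D.Red e 1) (he' : D'.Red e 0)
    {frob : C →ₐ[k] C} {q : ℕ} (hfr : ∀ z, frob (T.σb z) = z ^ q)
    (hfr' : ∀ z, frob (T.σb' z) = z ^ q) (hperm : ∀ i, T.perm (T.perm i) = i)
    {m : ℕ} (hm : (m : k) ≠ 0) (incl : F₀ →ₐ[L] F) (pb : Divisor L F₀ →+ Divisor L F)
    (hdiv : ∀ f, divisorOf (incl f) = pb (divisorOf f)) (s₀ : SemilinearAut L F₀)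
    (hequi : ∀ Z, pb (s₀ • Z) = (T.s * T.s) • pb Z) {X : Divisor L F₀}
    (hdeg : Divisor.degree (pb X) = 0) {g : F₀} (hg : g ≠ 0) (hgX : divisorOf g = m • X)
    (hnorm : ∀ (G : F₀) (a b : C), divisorOf G = m • (s₀ • X - X) → D.Red (incl G) a →
      D'.Red (incl G) b → a ≠ 0 → b ≠ 0 →
        (∀ w, frob w = b ^ q → PowConst k m (a * w)) ∧
        (∀ w, frob w = a ^ q → PowConst k m (b * w))) :
    relDiv q (T.s * T.s) (pb X) ∈ Divisor.principal (K := L) (F := F) := by
  set G₀ := toRingAut s₀ g / g with hG₀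
  have hG₀0 : G₀ ≠ 0 := div_ne_zero ((map_ne_zero _).2 hg) hg
  have hG₀d : divisorOf G₀ = m • (s₀ • X - X) := by
    rw [hG₀, div_eq_mul_inv, divisorOf_mul ((map_ne_zero _).2 hg) (inv_ne_zero hg),
      divisorOf_inv, divisorOf_toRingAut, hgX, smul_sub, smul_comm s₀, ← sub_eq_add_neg]
  refine Exists.elim (T.frobenius_relation hA hA0 he he' hfr hfr' hperm hm hdeg
    (g := incl g) ((map_ne_zero _).2 hg) (by rw [hdiv, hgX, map_nsmul])
    (fun G a b hG ha hb ha0 hb0 => ?_)) fun f hrel => ?_
  rotate_left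
  · refine ⟨f, hrel.1, fun v => ?_⟩
    rw [← divisorOf_apply (K := L) f v, ← hrel.2]
    rfl
  · have hG' : divisorOf (K := L) G = divisorOf (incl G₀) := by
      rw [hG, hdiv, hG₀d, map_nsmul, map_sub, hequi]
      rfl
    have hι0 : incl G₀ ≠ 0 := (map_ne_zero _).2 hG₀0
    have hG0 : G ≠ 0 := ha.ne_zero ha0
    obtain ⟨c, hc⟩ := exists_eq_algebraMap_of_divisorOf_eq_zero (K := L)
      (z := G / incl G₀) (Finsupp.ext fun v => by
        rw [divisorOf_apply, FunctionField.ord_div hG0 hι0, ← divisorOf_apply (K := L) G,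
          hG', divisorOf_apply, sub_self, Finsupp.zero_apply])
    have hc0 : c ≠ 0 := fun h => div_ne_zero hG0 hι0 (by rw [← hc, h, map_zero])
    have hGeq : G = incl (c • G₀) := by
      rw [map_smul, Algebra.smul_def, hc, div_mul_cancel₀ _ hι0]
    have hcd : divisorOf (c • G₀) = m • (s₀ • X - X) := by
      rw [← hG₀d]
      ext v
      rw [Algebra.smul_def, divisorOf_apply, divisorOf_apply,
        v.ord_mul ((map_ne_zero _).2 hc0) hG₀0, FunctionField.ord_algebraMap, zero_add]
    subst hGeq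
    exact hnorm _ a b hcd ha hb ha0 hb0

end incl

section main

variable {M M₁ : ℕ} [NeZero M] [NeZero M₁] (hM : M ∣ M₁)
  {A : ValuationSubring (AlgebraicClosure ℚ)} (hA : A.LiesOverPrime q)
  [CharP (ResidueField A) q] [IsAlgClosed (ResidueField A)]
  [IsFunctionField (ResidueField A) (modularFunctionFieldFullC (ResidueField A) M₁)]
  (hqM₁ : ¬ q ∣ M₁)

include hM in
theorem norm_side {m : ℕ} {σ : Γℚ} {DE : RedDatum A (residue A) (MF Qbar M)
      (modularFunctionFieldFullC (ResidueField A) M)}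
    {D D' : RedDatum A (residue A) (MF Qbar (M * q))
      (modularFunctionFieldFullC (ResidueField A) M)}
    {D₁ D₁' : RedDatum A (residue A) (MF Qbar (M₁ * q))
      (modularFunctionFieldFullC (ResidueField A) M₁)}
    (d : ℕ) [NeZero d] (hd : M * d ∣ M * q)
    (hS : letI := algebraAlong (degMap Qbar d hd)
      haveI := isScalarTower_along (degMap Qbar d hd)
      OneSide DE D D' (frobC (K := ResidueField A) q M) q)
    (hred : ∀ f z, D.Red f z → D₁.Red (levelIncl hM f) (residueIncl hM (ResidueField A) z))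
    (hred' : ∀ f z, D'.Red f z → D₁'.Red (levelIncl hM f) (residueIncl hM (ResidueField A) z))
    {X : Divisor.degZero (K := Qbar) (F := MF Qbar (M * q))}
    (hpush : LevelSq.pushPic d hd (Pic0.mk X : JZero (M * q)) = 0)
    {G : MF Qbar (M * q)} (hG : divisorOf G =
      m • ((arithmeticGalois (modularFunctionFieldFull (M * q)) σ *
          arithmeticGalois (modularFunctionFieldFull (M * q)) σ) •
          (X : Divisor Qbar (MF Qbar (M * q))) - (X : Divisor Qbar (MF Qbar (M * q)))))
    {a b w : modularFunctionFieldFullC (ResidueField A) M₁}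
    (ha : D₁.Red (levelIncl hM G) a) (hb : D₁'.Red (levelIncl hM G) b) (ha0 : a ≠ 0) (hb0 : b ≠ 0)
    (hw : frobC (K := ResidueField A) q M₁ w = b ^ q) : PowConst (ResidueField A) m (a * w) := by
  letI := algebraAlong (degMap Qbar d hd)
  haveI := isScalarTower_along (degMap Qbar d hd)
  haveI : Module.Finite (MF Qbar M) (MF Qbar (M * q)) :=
    (levelFacts Qbar).finite M (M * q) d hd
  haveI : IsFunctionField Qbar (MF Qbar M) := GoodRed.instIsFunctionFieldBar M
  haveI : IsFunctionField Qbar (MF Qbar (M * q)) := GoodRed.instIsFunctionFieldBar (M * q)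
  haveI : CharP (modularFunctionFieldFullC (ResidueField A) M) q :=
    charP_of_injective_ringHom (algebraMap (ResidueField A) _).injective q
  obtain ⟨a₀, ha₀, rfl⟩ := exists_red_of_map D D₁ (levelIncl hM) _ hred ha ha0
  obtain ⟨b₀, hb₀, rfl⟩ := exists_red_of_map D' D₁' (levelIncl hM) _ hred' hb hb0
  obtain ⟨w₀, hw₀⟩ := exists_frobC_eq_pow q M b₀
  set s : SemilinearAut Qbar (MF Qbar (M * q)) :=
    arithmeticGalois (modularFunctionFieldFull (M * q)) σ *
      arithmeticGalois (modularFunctionFieldFull (M * q)) σ with hs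
  have hpush' : LevelSq.pushPic d hd
      (Pic0.mk (SemilinearAut.degZeroSMulHom s X - X) : JZero (M * q)) = 0 := by
    rw [show (Pic0.mk (SemilinearAut.degZeroSMulHom s X - X) : JZero (M * q)) =
        Pic0.mk (SemilinearAut.degZeroSMulHom s X) - Pic0.mk X from map_sub (QuotientAddGroup.mk' _) _ _,
      ← SemilinearAut.pic0_smul_mk, hs, ← map_mul, ← galois_smul_pic0_def, map_sub,
      LevelSq.pushPic_smul, hpush, sub_zero]
    exact GalRep.smul_zero_jZero _
  rw [LevelSq.pushPic_mk, pic0_mk_eq_zero_iff, LevelSq.coe_pushDegZero] at hpush'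
  have hp := hS.powConst_norm (m := m)
    (X := ((SemilinearAut.degZeroSMulHom s X - X : Divisor.degZero) :
      Divisor Qbar (MF Qbar (M * q))))
    (by rw [hG, AddSubgroup.coe_sub, SemilinearAut.coe_degZeroSMulHom])
    ha₀ hb₀ (fun h => ha0 (by rw [h, map_zero])) (fun h => hb0 (by rw [h, map_zero])) hw₀ hpush'
  have hww : w = residueIncl hM (ResidueField A) w₀ := (frobC (K := ResidueField A) q M₁).toRingHom.injective (by
    show frobC (K := ResidueField A) q M₁ w = frobC (K := ResidueField A) q M₁ _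
    rw [hw, ← residueIncl_frobC, hw₀, map_pow])
  obtain ⟨t, z, ht, hz, hh⟩ := hp
  refine ⟨t, residueIncl hM (ResidueField A) z, ht, (map_ne_zero _).2 hz, ?_⟩
  rw [hww, ← map_mul, hh, map_mul, map_pow, AlgHom.commutes]

/-- `(F² - q²)(F² - 1)²` kills, up to the degree, the torsion classes with trivial images. -/
theorem frobRel_kill {ι : Type*} [Fintype ι]
    {Nd : NodeSystem (redInf A hA M₁ hqM₁) (redZero A hA M₁ hqM₁) ι}
    (T : NodeSystem.NodeAut Nd) {σ : Γℚ}
    (hTs : T.s = arithmeticGalois (modularFunctionFieldFull (M₁ * q)) σ)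
    (hfr : ∀ z, frobC (K := ResidueField A) q M₁ (T.σb z) = z ^ q) (hfr' : ∀ z, frobC (K := ResidueField A) q M₁ (T.σb' z) = z ^ q)
    (hperm : ∀ i, T.perm (T.perm i) = i)
    {h1 : M * 1 ∣ M * q} {hq : M * q ∣ M * q} {m : ℕ} (hm : ¬ q ∣ m) (x : JZero (M * q))
    (hx : m • x = 0) (hx1 : LevelSq.pushPic 1 h1 x = 0) (hxq : LevelSq.pushPic q hq x = 0) :
    finrankAlong Qbar (levelIncl (q := q) hM) • frobRel q σ x = 0 := by
  have hlev := mul_one_dvd_mul (q := q) hM
  rw [levelIncl, ← Eisen.pushPic_pullPic 1 hlev]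
  have hcomm : Eisen.pullPic 1 hlev (frobRel q σ x) = frobRel q σ (Eisen.pullPic 1 hlev x) := by
    simp only [frobRel, map_sub, map_nsmul, Eisen.pullPic_smul]
  suffices h : frobRel q σ (Eisen.pullPic 1 hlev x) = 0 by rw [hcomm, h, map_zero]
  haveI : IsFunctionField Qbar (MF Qbar (M * q)) := GoodRed.instIsFunctionFieldBar (M * q)
  haveI : IsFunctionField Qbar (MF Qbar (M₁ * q)) := GoodRed.instIsFunctionFieldBar (M₁ * q)
  haveI := (levelFacts Qbar).principal (M₁ * q)
  obtain ⟨X, rfl⟩ := Pic0.mk_surjective x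
  rw [Eisen.pullPic_mk]
  obtain ⟨Y, hY, hYd⟩ := exists_mk_relDiv q
    (arithmeticGalois (L := Qbar) (modularFunctionFieldFull (M₁ * q)) (σ * σ))
    (Eisen.pullDegZero 1 hlev X)
  rw [frobRel_eq_smul]
  refine hY.trans ?_
  rw [pic0_mk_eq_zero_iff, hYd, map_mul]
  have hmk : (m : ResidueField A) ≠ 0 := natCast_residue_ne_zero hA hm
  have hm' : m • (X : Divisor Qbar (MF Qbar (M * q))) ∈ Divisor.principal := by
    rw [← Eisen.mk_nsmul, pic0_mk_eq_zero_iff, AddSubmonoidClass.coe_nsmul] at hx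
    exact hx
  obtain ⟨g, hg, hgX⟩ := Eisen.exists_divisorOf_of_principal hm'
  set ρ₀ := arithmeticGalois (L := Qbar) (modularFunctionFieldFull (M * q)) σ
  set ρ₁ := arithmeticGalois (L := Qbar) (modularFunctionFieldFull (M₁ * q)) σ
  set X₁ := (Eisen.pullDegZero 1 hlev X : Divisor Qbar (MF Qbar (M₁ * q))) with hX₁
  have hX₁' : X₁ = Divisor.pullbackAlong (levelIncl (q := q) hM)
      ((levelFacts Qbar).integral 1 hlev) (X : Divisor Qbar (MF Qbar (M * q))) := rfl
  have hequi : ∀ Z : Divisor Qbar (MF Qbar (M * q)),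
      Divisor.pullbackAlong (levelIncl (q := q) hM) ((levelFacts Qbar).integral 1 hlev)
          ((ρ₀ * ρ₀) • Z) = (ρ₁ * ρ₁) • Divisor.pullbackAlong (levelIncl (q := q) hM)
          ((levelFacts Qbar).integral 1 hlev) Z := fun Z => by
    rw [mul_smul, mul_smul]
    exact (pullbackAlong_smul (degMap Qbar 1 hlev) _ (intertwines_degMap 1 hlev σ) _).trans
      (congrArg (ρ₁ • ·)
        (pullbackAlong_smul (degMap Qbar 1 hlev) _ (intertwines_degMap 1 hlev σ) _))
  have hdiv : ∀ f : MF Qbar (M * q), divisorOf (levelIncl hM f) =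
      Divisor.pullbackAlong (levelIncl (q := q) hM) ((levelFacts Qbar).integral 1 hlev)
        (divisorOf f) := fun f => by
    letI := algebraAlong (levelIncl (q := q) hM)
    haveI := isScalarTower_along (levelIncl (q := q) hM)
    haveI : Module.Finite (MF Qbar (M * q)) (MF Qbar (M₁ * q)) :=
      (levelFacts Qbar).finite (M * q) (M₁ * q) 1 hlev
    ext w
    show divisorOf (algebraMap (MF Qbar (M * q)) (MF Qbar (M₁ * q)) f) w =
      Divisor.pullback (MF Qbar (M₁ * q)) (divisorOf f) w
    rw [divisorOf_apply, Divisor.pullback_apply_eq_ord (fun v => divisorOf_apply f v)]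
  rw [← hTs]
  refine relDiv_principal_of_incl T (isRankOne_of_liesOverPrime hA Fact.out)
    (exists_mem_nonunits_ne_zero hA Fact.out) (red_sepFun hA hqM₁).1 (red_sepFun hA hqM₁).2
    hfr hfr' hperm hmk (levelIncl (q := q) hM)
    (Divisor.pullbackAlong (levelIncl (q := q) hM) ((levelFacts Qbar).integral 1 hlev))
    hdiv (ρ₀ * ρ₀) (fun Z => by rw [hTs]; exact hequi Z)
    (X := (X : Divisor Qbar (MF Qbar (M * q))))
    (Divisor.mem_degZero.1 (Eisen.pullDegZero 1 hlev X).2) hg hgX.symm
    (fun G a b hG ha hb ha0 hb0 => ?_)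
  exact ⟨fun w hw => norm_side hM 1 h1 (oneSide_alpha hA (not_dvd_of_dvd hM hqM₁))
      (red_levelIncl hM hA hqM₁) (red_levelIncl' hM hA hqM₁) hx1 hG ha hb ha0 hb0 hw,
    fun w hw => norm_side hM q hq (oneSide_beta hA (not_dvd_of_dvd hM hqM₁))
      (red_levelIncl' hM hA hqM₁) (red_levelIncl hM hA hqM₁) hxq hG hb ha hb0 ha0 hw⟩

end main

end FLTAgent.Semistable
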